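import Fermat.Agent.Polya.Bounds
import Mathlib.Analysis.Normed.Module.HahnBanach
import Mathlib.Data.Multiset.Bind

/-!
# Kleitman's partition

The subset sums of `n` vectors of norm at least `1` fall into `C (n, n / 2)` families, the sums in
each family at distance at least `1` from each other.
-/

set_option autoImplicit false

noncomputable section

open Finset

namespace FA.LittlewoodOfford

/-- The multiplicity of `i` in a symmetric chain of length `s`. -/
def mult (s : ℕ) (i : ℤ) : ℕ := if |i| < s ∧ ((s : ℤ) + i) % 2 = 1 then 1 else 0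

theorem mult_step {s : ℕ} (hs : 1 ≤ s) (i : ℤ) :
    mult (s + 1) i + mult (s - 1) i = mult s (i - 1) + mult s (i + 1) := by
  simp only [mult, abs_lt]
  split_ifs <;> omega

variable {E : Type*} [NormedAddCommGroup E] [NormedSpace ℝ E]

/-- The sums in the family are pairwise at distance at least `1`. -/
def Sparse (x : ℕ → E) (D : Finset (Finset ℕ)) : Prop :=
  ∀ S ∈ D, ∀ T ∈ D, S ≠ T → 1 ≤ dist (∑ i ∈ S, x i) (∑ i ∈ T, x i)

theorem exists_grow {x : ℕ → E} {n : ℕ} (hx : 1 ≤ ‖x n‖) {D : Finset (Finset ℕ)}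
    (hD : ∀ S ∈ D, S ⊆ range n) (hne : D.Nonempty) (hsp : Sparse x D) :
    ∃ P Q : Finset (Finset ℕ), #P = #D + 1 ∧ #Q + 1 = #D ∧ Sparse x P ∧ Sparse x Q ∧
      (∀ S ∈ P, S ⊆ range (n + 1)) ∧ (∀ S ∈ Q, S ⊆ range (n + 1)) ∧
      ∀ S ∈ D, S ∈ P ∧ (insert n S ∈ P ∨ insert n S ∈ Q) := by
  obtain ⟨g, hg, hgx⟩ := exists_dual_vector'' ℝ (x n)
  obtain ⟨M, hM, hmax⟩ := D.exists_max_image (fun S => g (∑ i ∈ S, x i)) hne
  have hn : ∀ S ∈ D, n ∉ S := fun S hS h => absurd (mem_range.1 (hD S hS h)) (lt_irrefl n)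
  have hins : ∀ S ∈ D, insert n S ∉ D := fun S _ h => hn _ h (mem_insert_self n S)
  have hsub : ∀ S ∈ D, S ⊆ range (n + 1) ∧ insert n S ⊆ range (n + 1) := fun S hS =>
    ⟨(hD S hS).trans (range_subset_range.2 (by omega)), insert_subset (mem_range.2 (by omega))
      ((hD S hS).trans (range_subset_range.2 (by omega)))⟩
  have hnew : ∀ S ∈ D, 1 ≤ dist (∑ i ∈ insert n M, x i) (∑ i ∈ S, x i) := by
    intro S hS
    rw [dist_eq_norm, sum_insert (hn M hM)]
    calc (1 : ℝ) ≤ ‖x n‖ + (g (∑ i ∈ M, x i) - g (∑ i ∈ S, x i)) := by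
          linarith [hmax S hS]
      _ = g (x n + ∑ i ∈ M, x i - ∑ i ∈ S, x i) := by
          rw [map_sub, map_add, hgx]
          simp only [RCLike.ofReal_real_eq_id, id_eq]
          ring
      _ ≤ ‖g (x n + ∑ i ∈ M, x i - ∑ i ∈ S, x i)‖ := le_abs_self _
      _ ≤ _ := g.le_of_opNorm_le hg _ |>.trans (one_mul _).le
  refine ⟨insert (insert n M) D, (D.erase M).image (insert n), ?_, ?_, ?_, ?_, ?_, ?_, ?_⟩
  · exact card_insert_of_notMem (hins M hM)
  · rw [card_image_of_injOn, card_erase_of_mem hM, Nat.sub_add_cancel (card_pos.2 hne)]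
    intro S hS T hT h
    rw [← erase_insert (hn S (mem_erase.1 hS).2), ← erase_insert (hn T (mem_erase.1 hT).2)]
    exact congrArg (fun U => U.erase n) h
  · intro S hS T hT hST
    rcases mem_insert.1 hS with rfl | hS <;> rcases mem_insert.1 hT with rfl | hT
    · exact absurd rfl hST
    · exact hnew T hT
    · rw [dist_comm]
      exact hnew S hS
    · exact hsp S hS T hT hST
  · intro S hS T hT hST
    obtain ⟨U, hU, rfl⟩ := mem_image.1 hS
    obtain ⟨V, hV, rfl⟩ := mem_image.1 hT
    rw [sum_insert (hn U (mem_erase.1 hU).2), sum_insert (hn V (mem_erase.1 hV).2), dist_add_left]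
    exact hsp U (mem_erase.1 hU).2 V (mem_erase.1 hV).2 fun e => hST (by rw [e])
  · intro S hS
    rcases mem_insert.1 hS with rfl | hS
    · exact (hsub M hM).2
    · exact (hsub S hS).1
  · intro S hS
    obtain ⟨U, hU, rfl⟩ := mem_image.1 hS
    exact (hsub U (mem_erase.1 hU).2).2
  · intro S hS
    refine ⟨mem_insert_of_mem hS, ?_⟩
    rcases eq_or_ne S M with rfl | hne'
    · exact Or.inl (mem_insert_self _ _)
    · exact Or.inr (mem_image.2 ⟨S, mem_erase.2 ⟨hne', hS⟩, rfl⟩)

/-- **Kleitman's partition.** -/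
theorem exists_partition (x : ℕ → E) : ∀ n : ℕ, (∀ i < n, 1 ≤ ‖x i‖) →
    ∃ B : Multiset (Finset (Finset ℕ)),
      (∀ D ∈ B, D.Nonempty ∧ (∀ S ∈ D, S ⊆ range n) ∧ Sparse x D ∧ (#D + n) % 2 = 1) ∧
      (∀ S, S ⊆ range n → ∃ D ∈ B, S ∈ D) ∧
      ∀ i : ℤ, (B.map fun D => mult #D i).sum = Polya.line n i
  | 0, _ => by
      refine ⟨{{∅}}, fun D hD => ?_, fun S hS => ?_, fun i => ?_⟩
      · rw [Multiset.mem_singleton.1 hD]
        simp [Sparse]
      · exact ⟨{∅}, Multiset.mem_singleton_self _, by simpa using hS⟩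
      · rw [Multiset.map_singleton, Multiset.sum_singleton, Polya.line_zero, mult, card_singleton]
        simp only [abs_lt]
        split_ifs <;> omega
  | n + 1, hx => by
      classical
      obtain ⟨B, hB, hcov, hcount⟩ := exists_partition x n fun i hi => hx i (by omega)
      choose! P Q hP hQ hPs hQs hPr hQr hPQ using fun D (hD : D ∈ B) =>
        exists_grow (hx n (Nat.lt_succ_self n)) (hB D hD).2.1 (hB D hD).1 (hB D hD).2.2.1
      refine ⟨B.bind fun D => if #D = 1 then {P D} else {P D, Q D}, fun D' hD' => ?_,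
        fun S hS => ?_, fun i => ?_⟩
      · obtain ⟨D, hD, hD'⟩ := Multiset.mem_bind.1 hD'
        have hpar := (hB D hD).2.2.2
        have hpos := (hB D hD).1.card_pos
        have h1 := hP D hD
        have h2 := hQ D hD
        have hPgood : (P D).Nonempty ∧ (∀ S ∈ P D, S ⊆ range (n + 1)) ∧ Sparse x (P D) ∧
            (#(P D) + (n + 1)) % 2 = 1 :=
          ⟨card_pos.1 (by omega), hPr D hD, hPs D hD, by omega⟩
        split_ifs at hD' with h
        · rw [Multiset.mem_singleton.1 hD']
          exact hPgood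
        · rcases Multiset.mem_cons.1 hD' with rfl | hD'
          · exact hPgood
          · rw [Multiset.mem_singleton.1 hD']
            exact ⟨card_pos.1 (by omega), hQr D hD, hQs D hD, by omega⟩
      · have hS' : S.erase n ⊆ range n := fun k hk => by
          have := mem_range.1 (hS (mem_erase.1 hk).2)
          exact mem_range.2 (by have := (mem_erase.1 hk).1; omega)
        obtain ⟨D, hD, hSD⟩ := hcov _ hS'
        obtain ⟨h1, h2⟩ := hPQ D hD _ hSD
        have hmemP : ∀ T, T ∈ P D → ∃ D' ∈ B.bind (fun D => if #D = 1 then {P D} else {P D, Q D}),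
            T ∈ D' := fun T hT =>
          ⟨P D, Multiset.mem_bind.2 ⟨D, hD, by split_ifs <;> simp⟩, hT⟩
        by_cases hnS : n ∈ S
        · rw [insert_erase hnS] at h2
          rcases h2 with h2 | h2
          · exact hmemP S h2
          · refine ⟨Q D, Multiset.mem_bind.2 ⟨D, hD, ?_⟩, h2⟩
            rw [if_neg]
            · simp
            · intro h
              have := hQ D hD
              have : #(Q D) = 0 := by omega
              rw [card_eq_zero.1 this] at h2
              exact notMem_empty _ h2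
        · rw [erase_eq_of_notMem hnS] at h1
          exact hmemP S h1
      · rw [Polya.line_succ, Multiset.map_bind, Multiset.sum_bind, ← hcount, ← hcount,
          ← Multiset.sum_map_add]
        refine congrArg Multiset.sum (Multiset.map_congr rfl fun D hD => ?_)
        have hpos := (hB D hD).1.card_pos
        rw [← mult_step hpos, ← hP D hD, show #D - 1 = #(Q D) by have := hQ D hD; omega]
        split_ifs with h
        · rw [show #(Q D) = 0 by have := hQ D hD; omega]
          simp [mult]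
        · simp

/-- **Kleitman's theorem.** -/
theorem card_filter_sum_mem_le (x : ℕ → E) (n : ℕ) (hx : ∀ i < n, 1 ≤ ‖x i‖) (A : Set E)
    [DecidablePred fun S : Finset ℕ => ∑ i ∈ S, x i ∈ A]
    (hA : ∀ p ∈ A, ∀ q ∈ A, dist p q < 1) :
    #((range n).powerset.filter fun S => ∑ i ∈ S, x i ∈ A) ≤ n.choose (n / 2) := by
  classical
  obtain ⟨B, hB, hcov, hcount⟩ := exists_partition x n hx
  have hcard : B.card = n.choose (n / 2) := by
    have h := hcount (2 * (((n + 1) / 2 : ℕ) : ℤ) - n)
    rw [Polya.line_eq_choose, Multiset.map_congr rfl fun D hD => show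
      mult #D (2 * (((n + 1) / 2 : ℕ) : ℤ) - n) = 1 by
        have := (hB D hD).1.card_pos
        have := (hB D hD).2.2.2
        rw [mult, if_pos]
        rw [abs_lt]
        omega] at h
    rw [Multiset.map_const', Multiset.sum_replicate, smul_eq_mul, mul_one] at h
    rw [h, ← Nat.choose_symm (show (n + 1) / 2 ≤ n by omega),
      show n - (n + 1) / 2 = n / 2 by omega]
  rw [← hcard]
  refine le_trans ?_ B.toFinset_card_le
  choose! F hFB hFS using hcov
  refine card_le_card_of_injOn F (fun S hS => Multiset.mem_toFinset.2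
    (hFB S (mem_powerset.1 (mem_filter.1 hS).1))) fun S hS T hT h => ?_
  obtain ⟨hS, hSA⟩ := mem_filter.1 hS
  obtain ⟨hT, hTA⟩ := mem_filter.1 hT
  by_contra hne
  have hTF := hFS T (mem_powerset.1 hT)
  rw [← h] at hTF
  exact absurd (hA _ hSA _ hTA)
    ((hB _ (hFB S (mem_powerset.1 hS))).2.2.1 S (hFS S (mem_powerset.1 hS)) T hTF hne).not_gt

end FA.LittlewoodOfford

end
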