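import Fermat.Agent.LittlewoodOfford.Kleitman
import Mathlib.Analysis.Real.Sqrt

/-!
# Erdős's theorem on signed sums
-/

set_option autoImplicit false

noncomputable section

open Finset

namespace FA.LittlewoodOfford

/-- The sum with the signs of `S`. -/
theorem signed_sum_eq (a : ℕ → ℝ) (n : ℕ) {S : Finset ℕ} (hS : S ⊆ range n) :
    ∑ i ∈ range n, (if i ∈ S then a i else -a i) =
      2 * ∑ i ∈ S, a i - ∑ i ∈ range n, a i := by
  rw [sum_ite, sum_neg_distrib, filter_mem_eq_inter, inter_eq_right.2 hS, filter_notMem_eq_sdiff,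
    sum_sdiff_eq_sub hS]
  ring

theorem card_signed_sum_le (a : ℕ → ℝ) (n : ℕ) (ha : ∀ i < n, 1 ≤ |a i|) (p : ℝ) :
    #((range n).powerset.filter fun S =>
      ∑ i ∈ range n, (if i ∈ S then a i else -a i) ∈ Set.Ico p (p + 2)) ≤ n.choose (n / 2) := by
  classical
  refine le_trans (card_le_card fun S hS => ?_) (card_filter_sum_mem_le a n
    (fun i hi => by rw [Real.norm_eq_abs]; exact ha i hi)
    (Set.Ico ((p + ∑ i ∈ range n, a i) / 2) ((p + ∑ i ∈ range n, a i) / 2 + 1)) fun u hu v hv => ?_)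
  · obtain ⟨hS, h⟩ := mem_filter.1 hS
    rw [signed_sum_eq a n (mem_powerset.1 hS)] at h
    obtain ⟨h1, h2⟩ := h
    exact mem_filter.2 ⟨hS, by linarith, by linarith⟩
  · rw [Real.dist_eq, abs_lt]
    exact ⟨by linarith [hu.1, hu.2, hv.1, hv.2], by linarith [hu.1, hu.2, hv.1, hv.2]⟩

theorem card_signed_sum_one (n : ℕ) :
    n.choose (n / 2) ≤ #((range n).powerset.filter fun S =>
      ∑ i ∈ range n, (if i ∈ S then (1 : ℝ) else -1) ∈
        Set.Ico (2 * ((n / 2 : ℕ) : ℝ) - n) (2 * ((n / 2 : ℕ) : ℝ) - n + 2)) := by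
  classical
  calc n.choose (n / 2) = #((range n).powersetCard (n / 2)) := by rw [card_powersetCard, card_range]
    _ ≤ _ := card_le_card fun S hS => by
        obtain ⟨hS, hc⟩ := mem_powersetCard.1 hS
        refine mem_filter.2 ⟨mem_powerset.2 hS, ?_⟩
        rw [signed_sum_eq (fun _ => (1 : ℝ)) n hS, sum_const, sum_const, card_range, nsmul_one,
          nsmul_one, hc]
        exact ⟨le_rfl, by linarith⟩

theorem choose_half_mul_sqrt_le (n : ℕ) :
    (n.choose (n / 2) : ℝ) * Real.sqrt (n + 1) ≤ 2 ^ n := by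
  have h : (n.choose (n / 2)) ^ 2 * (n + 1) ≤ (2 ^ n) ^ 2 := by
    rcases Nat.even_or_odd' n with ⟨m, rfl | rfl⟩
    · have := Polya.centralBinom_sq_le m
      rw [Nat.centralBinom] at this
      rw [Nat.mul_div_cancel_left m two_pos, ← pow_mul, show 2 * m * 2 = 4 * m by ring, pow_mul]
      exact this
    · have h1 : 2 * (2 * m + 1).choose m = (m + 1).centralBinom := by
        rw [Nat.centralBinom, show 2 * (m + 1) = 2 * m + 1 + 1 by ring, Nat.choose_succ_succ',
          Nat.choose_symm_half]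
        ring
      have h2 := Polya.centralBinom_sq_le (m + 1)
      rw [← h1, pow_succ 16] at h2
      rw [show (2 * m + 1) / 2 = m by omega, ← pow_mul,
        show (2 * m + 1) * 2 = 4 * m + 2 by ring, pow_add, pow_mul,
        show (2 : ℕ) ^ 4 = 16 by norm_num]
      nlinarith
  calc (n.choose (n / 2) : ℝ) * Real.sqrt (n + 1)
      = Real.sqrt (((n.choose (n / 2)) ^ 2 * (n + 1) : ℕ) : ℝ) := by
        push_cast
        rw [Real.sqrt_mul (by positivity), Real.sqrt_sq (by positivity)]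
    _ ≤ Real.sqrt ((((2 : ℕ) ^ n) ^ 2 : ℕ) : ℝ) := Real.sqrt_le_sqrt (by exact_mod_cast h)
    _ = 2 ^ n := by
        push_cast
        rw [Real.sqrt_sq (by positivity)]

end FA.LittlewoodOfford

end
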